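import Fermat.Agent.Lowering.P1.Primes.Frobenius
import Fermat.Agent.Lowering.P6.Tame

/-!
# Local cocycles away from `p`: dimensions
-/

set_option autoImplicit false
set_option linter.unusedSectionVars false
set_option linter.style.haveILetI false

noncomputable section

open scoped Pointwise

namespace FLTAgent.Lowering.P1.TWBound

open Primes
open Datum (trZero)

local notation "LL" => AlgebraicClosure ℚ
local notation "GG" => (AlgebraicClosure ℚ ≃ₐ[ℚ] AlgebraicClosure ℚ)

variable {p : ℕ} [Fact p.Prime] (D : Datum p) (k : Type) [Field k] [Algebra (ZMod p) k]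

theorem two_ne (D : Datum p) : (2 : k) ≠ 0 := by
  have := natCast_ne (k := k) D.p_gt 0 2 (by norm_num) (by norm_num)
  simpa using this.symm

theorem finrank_trZero : Module.finrank k ↥(trZero k) = 3 := by
  have h := LinearMap.finrank_range_add_finrank_ker (Matrix.traceLinearMap (Fin 2) k k)
  have hs : LinearMap.range (Matrix.traceLinearMap (Fin 2) k k) = ⊤ :=
    LinearMap.range_eq_top.2 fun a => ⟨!![a, 0; 0, 0], by simp [Matrix.trace_fin_two]⟩
  rw [hs, finrank_top, Module.finrank_self, Module.finrank_matrix, Fintype.card_fin,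
    Module.finrank_self] at h
  unfold trZero
  omega

/-- Coboundaries and invariants together have dimension three. -/
theorem finrank_cobs_add (e : ℕ) {G : Type} [Group G] (ι : G →* GG) :
    Module.finrank k ↥(D.cobs k e ι) + Module.finrank k ↥(D.invariants k e ι) = 3 := by
  have h := LinearMap.finrank_range_add_finrank_ker ((D.bdy k e ι).domRestrict (trZero k))
  rw [LinearMap.range_domRestrict, finrank_trZero k] at h
  rw [← h]
  congr 1
  refine LinearEquiv.finrank_eq ?_
  exact
    { toFun := fun x => ⟨⟨x.1, x.2.1⟩, x.2.2⟩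
      invFun := fun x => ⟨x.1.1, x.1.2, x.2⟩
      map_add' := fun _ _ => rfl
      map_smul' := fun _ _ => rfl
      left_inv := fun _ => rfl
      right_inv := fun _ => rfl }

instance finite_cobs (e : ℕ) {G : Type} [Group G] (ι : G →* GG) :
    FiniteDimensional k ↥(D.cobs k e ι) := by
  unfold Datum.cobs
  infer_instance

theorem finrank_cobs_le (e : ℕ) {G : Type} [Group G] (ι : G →* GG) :
    Module.finrank k ↥(D.cobs k e ι) ≤ 3 := by
  have := finrank_cobs_add D k e ι
  omega

/-- Cocycles killing inertia. -/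
def unram (V : ValuationSubring LL) :
    Submodule k (↥(V.decompositionSubgroup ℚ) → Matrix (Fin 2) (Fin 2) k) where
  carrier := {c | c ∈ D.cocycles k 0 (V.decompositionSubgroup ℚ).subtype ∧
    ∀ σ : ↥(V.decompositionSubgroup ℚ), (σ : GG) ∈ V.inertiaSubgroupIn ℚ → c σ = 0}
  zero_mem' := ⟨zero_mem _, fun _ _ => rfl⟩
  add_mem' := fun {a b} ha hb => ⟨add_mem ha.1 hb.1, fun σ h => by simp [ha.2 σ h, hb.2 σ h]⟩
  smul_mem' := fun a c hc => ⟨Submodule.smul_mem _ a hc.1, fun σ h => by simp [hc.2 σ h]⟩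

theorem cobs_le_unram {l : ℕ} (hl : l.Prime) (hlb : l ∉ D.bad) {V : ValuationSubring LL}
    (hV : V.LiesOverPrime l) : D.cobs k 0 (V.decompositionSubgroup ℚ).subtype ≤ unram D k V :=
  fun c hc => ⟨cobs_le_cocycles D k hc, fun σ hσ => by
    obtain ⟨m, -, h⟩ := (mem_cobs_iff D k).1 hc
    rw [h, Subgroup.subtype_apply, tw_of_rb D k 0 (D.unramified l hl hlb V hV _ hσ), sub_self]⟩

theorem normal_closure_level (F : IntermediateField ℚ LL) [FiniteDimensional ℚ F] :
    ∃ N : IntermediateField ℚ LL, FiniteDimensional ℚ N ∧ Normal ℚ N ∧ F ≤ N :=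
  haveI : Normal ℚ LL := normal_iff.2 fun x =>
    ⟨((AlgebraicClosure.isAlgebraic ℚ).isAlgebraic x).isIntegral, IsAlgClosed.splits _⟩
  ⟨IntermediateField.normalClosure ℚ F LL, normalClosure.is_finiteDimensional ℚ F LL,
    normalClosure.normal ℚ F LL, IntermediateField.le_normalClosure F⟩

/-- An unramified cocycle is determined by its value on a Frobenius element. -/
theorem finite_unram {l : ℕ} (hl : l.Prime) {V : ValuationSubring LL} (hV : V.LiesOverPrime l) :
    FiniteDimensional k ↥(unram D k V) ∧ Module.finrank k ↥(unram D k V) ≤ 3 := by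
  obtain ⟨φ, hφ⟩ := Frobenius.exists_isFrobeniusAt V l hl hV
  let φD : ↥(V.decompositionSubgroup ℚ) := ⟨φ, hφ.mem_decompositionSubgroup⟩
  let ev : ↥(unram D k V) →ₗ[k] ↥(trZero k) :=
    ((LinearMap.proj φD).comp (unram D k V).subtype).codRestrict _ fun c => c.2.1.2.1 φD
  have hinj : Function.Injective ev := by
    refine (injective_iff_map_eq_zero ev).2 fun c hc => ?_
    have h0 : c.1 φD = 0 := congrArg Subtype.val hc
    obtain ⟨hcoc, hin⟩ := c.2
    obtain ⟨F, hF, hlev⟩ := hcoc.1
    haveI := hF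
    obtain ⟨N, hN, hNn, hFN⟩ := normal_closure_level F
    haveI := hN
    haveI := hNn
    have hpow : ∀ i : ℕ, c.1 (φD ^ i) = 0 := fun i => by
      induction i with
      | zero => rw [pow_zero]; exact coc_one D k hcoc
      | succ i ih => rw [pow_succ, hcoc.2.2, ih, h0, map_zero, add_zero]
    refine Subtype.ext (funext fun τ => ?_)
    obtain ⟨i, ν, σ, hσ, hν, hτ⟩ := P6.exists_pow_mul_inertia_mul V hl hV hφ N τ.2
    have hσD := Places.inertia_le_decomposition V hσ
    have hνD : ν ∈ V.decompositionSubgroup ℚ := by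
      rw [show ν = (φ ^ i)⁻¹ * τ.1 * σ⁻¹ by rw [hτ]; group]
      exact mul_mem (mul_mem (inv_mem (pow_mem φD.2 i)) τ.2) (inv_mem hσD)
    have e : τ = φD ^ i * ⟨ν, hνD⟩ * ⟨σ, hσD⟩ := Subtype.ext hτ
    rw [e, hcoc.2.2, hin ⟨σ, hσD⟩ hσ, map_zero, add_zero,
      hlev (φD ^ i) ⟨ν, hνD⟩ (IntermediateField.fixingSubgroup_antitone hFN hν), hpow]
    rfl
  haveI : FiniteDimensional k ↥(unram D k V) := FiniteDimensional.of_injective ev hinj
  exact ⟨inferInstance, (LinearMap.finrank_le_finrank_of_injective hinj).trans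
    (finrank_trZero k).le⟩

/-- The values on the decomposition group of an auxiliary prime commute. -/
theorem one_le_finrank_invariants {n q : ℕ} (hq : D.IsAuxPrime n q) {V : ValuationSubring LL}
    (hV : V.LiesOverPrime q) :
    1 ≤ Module.finrank k ↥(D.invariants k 0 (V.decompositionSubgroup ℚ).subtype) := by
  obtain ⟨hqp, hqb, hdvd, -, α, hα, hchar⟩ := hq
  have hpr : p.Prime := Fact.out
  obtain ⟨φ, hφ⟩ := Frobenius.exists_isFrobeniusAt V q hqp hV
  set R := D.rb φ with hR
  have hdet : Matrix.det (R : Matrix (Fin 2) (Fin 2) (ZMod p)) = 1 := by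
    obtain ⟨ζ, hζ⟩ := HasEnoughRootsOfUnity.exists_primitiveRoot LL p
    have hne : ¬ q ∣ p := fun h =>
      hqb ((Nat.prime_dvd_prime_iff_eq hqp hpr).1 h ▸ D.p_mem)
    have hζ0 : ζ ≠ 0 := hζ.ne_zero hpr.ne_zero
    have hζV : ζ ∈ V := Kronecker.mem_of_pow_eq_one V hpr.ne_zero hζ.pow_eq_one
    have hinv : ζ⁻¹ ∈ V :=
      Kronecker.mem_of_pow_eq_one V hpr.ne_zero (by rw [inv_pow, hζ.pow_eq_one, inv_one])
    have hζq : ζ ^ q = ζ := by
      obtain ⟨t, ht⟩ := hdvd
      rw [show q = q - 1 + 1 from (Nat.sub_add_cancel hqp.one_le).symm, pow_succ, ht, pow_mul,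
        hζ.pow_eq_one, one_pow, one_mul]
    have h := ((Frobenius.isFrobeniusAt_iff V φ q).1 hφ).2 ζ hζV
    rw [hζq] at h
    have h1 : φ ζ * ζ⁻¹ - 1 ∈ V.nonunits := by
      rw [show φ ζ * ζ⁻¹ - 1 = (φ ζ - ζ) * ζ⁻¹ by rw [sub_mul, mul_inv_cancel₀ hζ0]]
      rw [← SetLike.mem_coe, ← ValuationSubring.image_maximalIdeal] at h ⊢
      obtain ⟨u, hu, hu'⟩ := h
      exact ⟨u * ⟨_, hinv⟩, Ideal.mul_mem_right _ _ hu, by rw [← hu']; rfl⟩
    have h2 := Reducible.eq_one_of_sub_one_mem_nonunits (p := p)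
      (by rw [mul_pow, ← map_pow, hζ.pow_eq_one, map_one, inv_pow, hζ.pow_eq_one, inv_one, one_mul])
      (Reducible.natCast_notMem_nonunits hqp hV hne) h1
    rw [mul_inv_eq_one₀ hζ0, D.det_cyclo φ ζ hζ.pow_eq_one] at h2
    have h3 := hζ.pow_inj (ZMod.val_lt _) hpr.one_lt (by rw [h2, pow_one])
    exact ZMod.val_injective p (by rw [h3, ZMod.val_one])
  set t : k := algebraMap (ZMod p) k (Matrix.trace (R : Matrix (Fin 2) (Fin 2) (ZMod p))) / 2
  set A : Matrix (Fin 2) (Fin 2) k :=
    (R : Matrix (Fin 2) (Fin 2) (ZMod p)).map (algebraMap (ZMod p) k) - t • 1 with hA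
  have htrA : Matrix.trace A = 0 := by
    have h2 := two_ne k D
    rw [hA, Matrix.trace_sub, Matrix.trace_smul, Matrix.trace_one, Fintype.card_fin]
    simp only [t, smul_eq_mul, Matrix.trace_fin_two, Matrix.map_apply, map_add]
    push_cast
    field_simp
    ring
  have hA0 : A ≠ 0 := fun h0 => by
    have h' : ∀ i j, algebraMap (ZMod p) k ((R : Matrix (Fin 2) (Fin 2) (ZMod p)) i j) =
        if i = j then t else 0 := fun i j => by
      have := congrFun (congrFun h0 i) j
      simp [A, Matrix.one_apply, sub_eq_zero] at this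
      rw [this]
    have hinj := (algebraMap (ZMod p) k).injective
    set M := (R : Matrix (Fin 2) (Fin 2) (ZMod p))
    have e01 : M 0 1 = 0 := hinj (by rw [h' 0 1, map_zero]; rfl)
    have e10 : M 1 0 = 0 := hinj (by rw [h' 1 0, map_zero]; rfl)
    have e11 : M 1 1 = M 0 0 := hinj (by rw [h' 1 1, h' 0 0]; rfl)
    have hd := hdet
    rw [Matrix.det_fin_two, e01, e11, zero_mul, sub_zero] at hd
    have hc := hchar V hV φ hφ
    rw [Matrix.trace_fin_two] at hc
    change α ^ 2 - (M 0 0 + M 1 1) * α + 1 = 0 at hc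
    rw [e11] at hc
    have h4 : (α - M 0 0) ^ 2 = 0 := by linear_combination hc + hd
    have h5 : α = M 0 0 := sub_eq_zero.1 (pow_eq_zero_iff two_ne_zero |>.1 h4)
    exact hα (by rw [h5, sq, hd])
  have hmem : A ∈ D.invariants k 0 (V.decompositionSubgroup ℚ).subtype := by
    refine ⟨htrA, ?_⟩
    rw [SetLike.mem_coe, LinearMap.mem_ker]
    funext τ
    show D.tw k 0 τ.1 A - A = 0
    obtain ⟨L, hL, hlev⟩ := D.level
    haveI := hL
    obtain ⟨N, hN, hNn, hLN⟩ := normal_closure_level L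
    haveI := hN
    haveI := hNn
    obtain ⟨i, ν, σ, hσ, hν, hτ⟩ := P6.exists_pow_mul_inertia_mul V hqp hV hφ N τ.2
    have hτR : D.rb τ.1 = R ^ i := by
      rw [hτ, map_mul, map_mul, map_pow, D.unramified q hqp hqb V hV σ hσ,
        hlev ν fun x hx => (IntermediateField.mem_fixingSubgroup_iff N ν).1 hν x (hLN hx),
        mul_one, mul_one]
    rw [tw_eq, hτR, twG_apply, pow_zero, map_one, one_smul, sub_eq_zero, hA, sub_mul, mul_sub,
      smul_mul_assoc, mul_smul_comm, one_mul, ← Units.val_mul, ← map_mul, mul_inv_cancel, map_one,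
      Units.val_one]
    congr 1
    have hRm : (R : Matrix (Fin 2) (Fin 2) (ZMod p)).map (algebraMap (ZMod p) k) =
        ((Matrix.GeneralLinearGroup.map (algebraMap (ZMod p) k) R : GL (Fin 2) k) :
          Matrix (Fin 2) (Fin 2) k) := rfl
    rw [hRm, ← Units.val_mul, ← Units.val_mul, ← map_mul, ← map_mul,
      show R ^ i * (R * (R ^ i)⁻¹) = R by group]
  haveI : FiniteDimensional k ↥(D.invariants k 0 (V.decompositionSubgroup ℚ).subtype) :=
    Submodule.finiteDimensional_of_le (inf_le_left (b := LinearMap.ker _))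
  exact Nat.one_le_iff_ne_zero.2 fun h => hA0 (by
    rw [Submodule.finrank_eq_zero] at h
    rwa [h, Submodule.mem_bot] at hmem)

end FLTAgent.Lowering.P1.TWBound
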