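import Fermat.Agent.Lowering.P1.Primes.Basic

/-!
# The pairing of local classes
-/

set_option autoImplicit false
set_option linter.unusedSectionVars false
set_option linter.style.haveILetI false

noncomputable section

open scoped Pointwise

namespace FLTAgent.Lowering.P1.TWBound

open Primes

local notation "LL" => AlgebraicClosure ℚ
local notation "GG" => (AlgebraicClosure ℚ ≃ₐ[ℚ] AlgebraicClosure ℚ)

/-- Functions on a decomposition group. -/
abbrev Fn (k : Type) (V : ValuationSubring LL) : Type :=
  ↥(V.decompositionSubgroup ℚ) → Matrix (Fin 2) (Fin 2) k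

variable {p : ℕ} [Fact p.Prime] (D : Datum p) (k : Type) [Field k] [Algebra (ZMod p) k]
  [FiniteDimensional (ZMod p) k] (I : Invariants D k) (V : ValuationSubring LL)

/-- The invariant of the cup product, as a functional of the coordinate. -/
def pairFun (x y : Fn k V) : (k →ₗ[ZMod p] ZMod p) →ₗ[ZMod p] ZMod p where
  toFun φ := I.inv V fun g h => φ (D.cup k (V.decompositionSubgroup ℚ).subtype x y g h)
  map_add' φ ψ := by rw [← map_add]; rfl
  map_smul' a φ := by rw [← map_smul]; rfl

/-- The pairing with values in the coefficients. -/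
def pair (x y : Fn k V) : k := (Module.evalEquiv (ZMod p) k).symm (pairFun D k I V x y)

theorem apply_pair (φ : k →ₗ[ZMod p] ZMod p) (x y : Fn k V) :
    φ (pair D k I V x y) = I.inv V fun g h =>
      φ (D.cup k (V.decompositionSubgroup ℚ).subtype x y g h) :=
  Module.apply_evalEquiv_symm_apply (ZMod p) k φ (pairFun D k I V x y)

theorem eq_of_forall_dual {a b : k} (h : ∀ φ : k →ₗ[ZMod p] ZMod p, φ a = φ b) : a = b :=
  (Module.evalEquiv (ZMod p) k).injective (LinearMap.ext h)

/-- The pairing, bilinear over the coefficients. -/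
def pairing : Fn k V →ₗ[k] Fn k V →ₗ[k] k :=
  LinearMap.mk₂ k (pair D k I V)
    (fun x x' y => eq_of_forall_dual (p := p) k fun φ => by
      rw [map_add, apply_pair, apply_pair, apply_pair, ← map_add]
      congr 1
      funext g h
      simp [Datum.cup, add_mul, Matrix.trace_add])
    (fun a x y => eq_of_forall_dual (p := p) k fun φ => by
      rw [smul_eq_mul, ← LinearMap.mulLeft_apply (R := ZMod p), ← LinearMap.comp_apply, apply_pair,
        apply_pair]
      congr 1
      funext g h
      simp [Datum.cup, Matrix.trace_smul])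
    (fun x y y' => eq_of_forall_dual (p := p) k fun φ => by
      rw [map_add, apply_pair, apply_pair, apply_pair, ← map_add]
      congr 1
      funext g h
      simp [Datum.cup, mul_add, Matrix.trace_add, map_add])
    (fun a x y => eq_of_forall_dual (p := p) k fun φ => by
      rw [smul_eq_mul, ← LinearMap.mulLeft_apply (R := ZMod p), ← LinearMap.comp_apply, apply_pair,
        apply_pair]
      congr 1
      funext g h
      simp [Datum.cup, Matrix.trace_smul])

theorem apply_pairing (φ : k →ₗ[ZMod p] ZMod p) (x y : Fn k V) :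
    φ (pairing D k I V x y) = I.inv V fun g h =>
      φ (D.cup k (V.decompositionSubgroup ℚ).subtype x y g h) :=
  apply_pair D k I V φ x y

theorem dual_algebraMap_mul (φ : k →ₗ[ZMod p] ZMod p) (a : ZMod p) (z : k) :
    φ (algebraMap (ZMod p) k a * z) = a * φ z := by
  rw [← Algebra.smul_def, map_smul, smul_eq_mul]

/-- Coboundaries pair to zero. -/
theorem pairing_cobs {l : ℕ} (hl : l.Prime) (hV : V.LiesOverPrime l) {x y : Fn k V}
    (hx : x ∈ D.cobs k 0 (V.decompositionSubgroup ℚ).subtype)
    (hy : y ∈ D.cocycles k 1 (V.decompositionSubgroup ℚ).subtype) :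
    pairing D k I V x y = 0 := by
  refine eq_of_forall_dual (p := p) k fun φ => ?_
  rw [map_zero, apply_pairing]
  obtain ⟨m, -, hm⟩ := (mem_cobs_iff D k).1 hx
  obtain ⟨⟨F, hF, hlev⟩, -, hh⟩ := hy
  set f : ↥(V.decompositionSubgroup ℚ) → ZMod p := fun g => φ (Matrix.trace (m * y g))
  have hf : LevC (V.decompositionSubgroup ℚ).subtype f :=
    ⟨F, hF, fun g s hs => by simp only [f]; rw [hlev g s hs]⟩
  rw [show (fun g h => φ (D.cup k (V.decompositionSubgroup ℚ).subtype x y g h)) =
    D.bdy₂ (V.decompositionSubgroup ℚ).subtype f from ?_]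
  · exact I.inv_bdy l V hl hV f hf
  funext g h
  show φ (Matrix.trace _) = _
  rw [hm, sub_mul, Matrix.trace_sub, trace_tw_mul, map_sub, dual_algebraMap_mul,
    eq_sub_of_add_eq' (hh g h).symm, mul_sub, Matrix.trace_sub, map_sub]
  simp only [Datum.bdy₂, f]
  ring

/-- The cup product of global classes is a two cocycle. -/
theorem cup_mem (φ : k →ₗ[ZMod p] ZMod p) {z y : GG → Matrix (Fin 2) (Fin 2) k}
    (hz : z ∈ D.cocycles k 0 (MonoidHom.id GG)) (hy : y ∈ D.cocycles k 1 (MonoidHom.id GG)) :
    (fun g h => φ (D.cup k (MonoidHom.id GG) z y g h)) ∈ D.cocycles₂ (MonoidHom.id GG) := by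
  obtain ⟨⟨F, hF, hlev⟩, -, hhz⟩ := hz
  obtain ⟨⟨F', hF', hlev'⟩, -, hhy⟩ := hy
  obtain ⟨L, hL, hl⟩ := D.level
  refine ⟨⟨F ⊔ F' ⊔ L, inferInstance, fun g h s t hs ht => ?_⟩, fun g h j => ?_⟩
  · have hs' : D.rb s = 1 := hl s ((IntermediateField.mem_fixingSubgroup_iff L s).1
      (IntermediateField.fixingSubgroup_antitone le_sup_right hs))
    simp only [Datum.cup, MonoidHom.id_apply]
    rw [hlev g s (IntermediateField.fixingSubgroup_antitone (le_sup_left.trans le_sup_left) hs),
      hlev' h t (IntermediateField.fixingSubgroup_antitone (le_sup_right.trans le_sup_left) ht),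
      tw_mul, tw_of_rb D k 1 hs']
  · simp only [MonoidHom.id_apply]
    rw [← dual_algebraMap_mul k φ, ← map_sub, ← map_add, ← map_sub]
    convert map_zero φ using 2
    simp only [Datum.cup, MonoidHom.id_apply]
    rw [hhz g h, hhy h j, ← trace_tw_mul, tw_mul]
    simp only [MonoidHom.id_apply, add_mul, mul_add, Matrix.trace_add, map_add]
    ring

/-- The cup product of classes unramified at a place does not see inertia there. -/
theorem cup_mul_inertia {z y : GG → Matrix (Fin 2) (Fin 2) k}
    (hz : z ∈ D.cocycles k 0 (MonoidHom.id GG)) (hy : y ∈ D.cocycles k 1 (MonoidHom.id GG))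
    {σ : GG} (h1 : z σ = 0) (h2 : y σ = 0) (h3 : D.rb σ = 1) (g h : GG) :
    D.cup k (MonoidHom.id GG) z y (g * σ) h = D.cup k (MonoidHom.id GG) z y g h ∧
      D.cup k (MonoidHom.id GG) z y g (h * σ) = D.cup k (MonoidHom.id GG) z y g h := by
  simp only [Datum.cup, MonoidHom.id_apply]
  rw [hz.2.2 g σ, h1, map_zero, add_zero, hy.2.2 h σ, h2, map_zero, add_zero, tw_mul,
    tw_of_rb D k 1 h3]
  exact ⟨rfl, rfl⟩

end FLTAgent.Lowering.P1.TWBound
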