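import Fermat.Agent.Lowering.P1.TWBound.Count

/-!
# The tangent bound with auxiliary primes, from the other parts
-/

set_option autoImplicit false
set_option linter.unusedSectionVars false
set_option linter.style.haveILetI false

noncomputable section

open scoped Pointwise

namespace FLTAgent.Lowering.P1

local notation "LL" => AlgebraicClosure ℚ
local notation "GG" => (AlgebraicClosure ℚ ≃ₐ[ℚ] AlgebraicClosure ℚ)

open Primes TWBound

namespace TWBound

variable {p : ℕ} [Fact p.Prime] (D : Datum p) (k : Type) [Field k] [Algebra (ZMod p) k]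

/-- A chosen place over every prime. -/
def placeOver (l : ℕ) : ValuationSubring LL :=
  if h : l.Prime then (Frobenius.exists_liesOverPrime l h).choose else ⊤

theorem placeOver_spec {l : ℕ} (h : l.Prime) : (placeOver l).LiesOverPrime l := by
  rw [placeOver, dif_pos h]
  exact (Frobenius.exists_liesOverPrime l h).choose_spec

/-- The classes not seen at a set of primes. -/
def hidden (e : ℕ) (S Q : Finset ℕ) : Submodule k (GG → Matrix (Fin 2) (Fin 2) k) :=
  D.cocyclesOutside k e S ⊓ ⨅ q ∈ Q, (D.cobs k e ((placeOver q).decompositionSubgroup ℚ).subtype).comap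
    (Datum.resAt k (placeOver q))

theorem mem_hidden {e : ℕ} {S Q : Finset ℕ} {c : GG → Matrix (Fin 2) (Fin 2) k} :
    c ∈ hidden D k e S Q ↔ c ∈ D.cocyclesOutside k e S ∧ ∀ q ∈ Q,
      Datum.resAt k (placeOver q) c ∈ D.cobs k e ((placeOver q).decompositionSubgroup ℚ).subtype := by
  simp [hidden, Submodule.mem_iInf]

/-- The primes allowed. -/
def Good (n : ℕ) (S avoid Q : Finset ℕ) : Prop :=
  ∀ q ∈ Q, q ∉ avoid ∧ q ∉ S ∧ D.IsAuxPrime n q

theorem exists_detecting [FiniteDimensional (ZMod p) k] (hP : TargetPrimes) {e : ℕ} (he : e ≤ 1)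
    (S : Finset ℕ) [FiniteDimensional k ↥(D.cocyclesOutside k e S)] (n : ℕ) (avoid : Finset ℕ) :
    ∀ (d : ℕ) (Q : Finset ℕ), Good D n S avoid Q →
      Module.finrank k ↥(hidden D k e S Q) ≤ d →
      ∃ Q', Q ⊆ Q' ∧ Good D n S avoid Q' ∧ Q'.card ≤ Q.card + d ∧
        hidden D k e S Q' ≤ D.cobs k e (MonoidHom.id GG) := by
  intro d
  induction d with
  | zero =>
    intro Q hQ hd
    haveI : FiniteDimensional k ↥(hidden D k e S Q) :=
      Submodule.finiteDimensional_of_le (S₂ := D.cocyclesOutside k e S) inf_le_left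
    refine ⟨Q, subset_rfl, hQ, le_rfl, ?_⟩
    rw [Submodule.finrank_eq_zero.1 (Nat.le_zero.1 hd)]
    exact bot_le
  | succ d ih =>
    intro Q hQ hd
    by_cases hle : hidden D k e S Q ≤ D.cobs k e (MonoidHom.id GG)
    · exact ⟨Q, subset_rfl, hQ, Nat.le_add_right _ _, hle⟩
    obtain ⟨c, hc, hcn⟩ := SetLike.not_le_iff_exists.1 hle
    obtain ⟨q, hq, haux, hsee⟩ :=
      hP p D k e he S c ((mem_hidden D k).1 hc).1 hcn n (avoid ∪ S ∪ Q)
    simp only [Finset.mem_union, not_or] at hq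
    obtain ⟨⟨hqa, hqS⟩, hqQ⟩ := hq
    have hgood : Good D n S avoid (insert q Q) := fun r hr => by
      rcases Finset.mem_insert.1 hr with rfl | hr
      · exact ⟨hqa, hqS, haux⟩
      · exact hQ r hr
    haveI : FiniteDimensional k ↥(hidden D k e S Q) :=
      Submodule.finiteDimensional_of_le (S₂ := D.cocyclesOutside k e S) inf_le_left
    have hlt : hidden D k e S (insert q Q) < hidden D k e S Q := by
      refine lt_of_le_of_ne (fun x hx => ?_) fun h => hsee _ (placeOver_spec haux.1)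
        (((mem_hidden D k).1 (h ▸ hc : c ∈ hidden D k e S (insert q Q))).2 q
          (Finset.mem_insert_self _ _))
      rw [mem_hidden] at hx ⊢
      exact ⟨hx.1, fun r hr => hx.2 r (Finset.mem_insert_of_mem hr)⟩
    have hlt' := Submodule.finrank_lt_finrank_of_lt hlt
    obtain ⟨Q', hQQ, hg, hcard, hdet⟩ := ih (insert q Q) hgood (by omega)
    exact ⟨Q', (Finset.subset_insert _ _).trans hQQ, hg,
      hcard.trans (by rw [Finset.card_insert_of_notMem hqQ]; omega), hdet⟩

theorem hidden_anti {e : ℕ} {S Q Q' : Finset ℕ} (h : Q ⊆ Q') :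
    hidden D k e S Q' ≤ hidden D k e S Q := fun x hx => by
  rw [mem_hidden] at hx ⊢
  exact ⟨hx.1, fun r hr => hx.2 r (h hr)⟩

/-- A class which is locally trivial at a set of primes is unramified there. -/
theorem mem_outside_of_cobs {e : ℕ} {S Q : Finset ℕ} (hQ : ∀ q ∈ Q, q.Prime ∧ q ∉ D.bad)
    {c : GG → Matrix (Fin 2) (Fin 2) k} (hc : c ∈ D.cocyclesOutside k e (S ∪ Q))
    (hcob : ∀ q ∈ Q, Datum.resAt k (placeOver q) c ∈
      D.cobs k e ((placeOver q).decompositionSubgroup ℚ).subtype) :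
    c ∈ D.cocyclesOutside k e S := by
  refine ⟨hc.1, fun l hl hlS V hV σ hσ => ?_⟩
  by_cases hlQ : l ∈ Q
  swap
  · exact hc.2 l hl (by simp [hlS, hlQ]) V hV σ hσ
  obtain ⟨g, hg⟩ := Places.exists_smul_eq hl hV (placeOver_spec hl)
  have hσ' := Places.conj_mem_inertia V hσ g
  rw [hg] at hσ'
  obtain ⟨m, -, hm⟩ := (mem_cobs_iff D k).1 (hcob l hlQ)
  have hrb : D.rb σ = 1 := D.unramified l hl (hQ l hlQ).2 V hV σ hσ
  have hrb' : D.rb (g * σ * g⁻¹) = 1 := by simp [hrb]
  have h1 := hm ⟨_, Places.inertia_le_decomposition _ hσ'⟩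
  rw [Subgroup.subtype_apply, tw_of_rb D k e hrb', sub_self, resAt_apply,
    coc_conj_of_rb D k hc.1 g σ hrb, MonoidHom.id_apply] at h1
  have h2 := congrArg (D.tw k e g⁻¹) h1
  rwa [map_zero, ← tw_mul, inv_mul_cancel, tw_one] at h2

end TWBound

theorem targetTWBound (hI : TargetInvariants) (hU : TargetUnitBound) (hP : TargetPrimes) :
    TargetTWBound := by
  intro p _ D k _ _ _ S hbad hS
  classical
  obtain ⟨I⟩ := hI p D k
  obtain ⟨S₀, hS₀, hU⟩ := hU p D k
  set S' := S ∪ S₀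
  have hbad' : D.bad ⊆ S' := hbad.trans Finset.subset_union_left
  have hS' : ∀ l ∈ S', l.Prime := fun l hl => (Finset.mem_union.1 hl).elim (hS l) (hS₀ l)
  obtain ⟨hf0, hf1, hlow'⟩ := hU S' Finset.subset_union_right hbad' hS'
  haveI := hf0
  haveI := hf1
  -- a class which is not a coboundary
  obtain ⟨c₁, hc₁, hc₁n⟩ : ∃ c ∈ D.cocyclesOutside k 1 S', c ∉ D.cobs k 1 (MonoidHom.id GG) := by
    by_contra h
    push Not at h
    have h1 := Submodule.finrank_mono (R := k) (s := D.cocyclesOutside k 1 S') h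
    have h2 := finrank_cobs_le D k 1 (MonoidHom.id GG)
    have h3 := hlow' placeOver fun l hl => placeOver_spec (hS' l hl)
    omega
  refine ⟨Module.finrank k ↥(D.cocyclesOutside k 0 S') +
    Module.finrank k ↥(D.cocyclesOutside k 1 S'), fun n avoid => ?_⟩
  set r := Module.finrank k ↥(D.cocyclesOutside k 0 S') +
    Module.finrank k ↥(D.cocyclesOutside k 1 S')
  obtain ⟨Q₁, -, hQ₁, hc1, hdet0⟩ := exists_detecting D k hP (Nat.zero_le 1) S' n avoid _ ∅
    (fun q hq => absurd hq (Finset.notMem_empty q))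
    (Submodule.finrank_mono (inf_le_left : hidden D k 0 S' ∅ ≤ D.cocyclesOutside k 0 S'))
  obtain ⟨Q₂, hQ12, hQ₂, hc2, hdet1⟩ := exists_detecting D k hP (le_refl 1) S' n avoid _ Q₁ hQ₁
    (Submodule.finrank_mono (inf_le_left : hidden D k 1 S' Q₁ ≤ D.cocyclesOutside k 1 S'))
  have hpad : ∀ d : ℕ, ∃ Q, Q₂ ⊆ Q ∧ Good D n S' avoid Q ∧ Q.card = Q₂.card + d := by
    intro d
    induction d with
    | zero => exact ⟨Q₂, subset_rfl, hQ₂, rfl⟩
    | succ d ih =>
      obtain ⟨Q, h1, h2, h3⟩ := ih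
      obtain ⟨q, hq, haux, -⟩ := hP p D k 1 le_rfl S' c₁ hc₁ hc₁n n (avoid ∪ S' ∪ Q)
      simp only [Finset.mem_union, not_or] at hq
      obtain ⟨⟨hqa, hqS⟩, hqQ⟩ := hq
      refine ⟨insert q Q, h1.trans (Finset.subset_insert _ _), fun r hr => ?_,
        by rw [Finset.card_insert_of_notMem hqQ]; omega⟩
      rcases Finset.mem_insert.1 hr with rfl | hr
      · exact ⟨hqa, by simp [S', hqS], haux⟩
      · exact h2 r hr
  rw [Finset.card_empty] at hc1
  obtain ⟨Q, hQ2, hQ, hcard⟩ := hpad (r - Q₂.card)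
  have hcard' : Q.card = r := by omega
  refine ⟨Q, hcard', fun q hq => ⟨(hQ q hq).1,
    fun h => (hQ q hq).2.1 (Finset.mem_union_left _ h), (hQ q hq).2.2⟩, ?_⟩
  intro V hV Zloc hZloc Z hZ hZres
  have hQbad : ∀ q ∈ Q, q.Prime ∧ q ∉ D.bad := fun q hq => ⟨(hQ q hq).2.2.1, (hQ q hq).2.2.2.1⟩
  have hQaux : ∀ q ∈ Q, D.IsAuxPrime 1 q := fun q hq => by
    obtain ⟨h1, h2, h3, -, h4⟩ := (hQ q hq).2.2
    exact ⟨h1, h2, h3, by rwa [pow_one], h4⟩
  set S'' := S' ∪ Q
  have hpr : ∀ l ∈ S'', l.Prime := fun l hl =>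
    (Finset.mem_union.1 hl).elim (hS' l) fun h => (hQbad l h).1
  obtain ⟨hF0, hF1, hlow⟩ :=
    hU S'' (Finset.subset_union_right.trans Finset.subset_union_left)
      (hbad'.trans Finset.subset_union_left) hpr
  haveI := hF1
  let P : ℕ → Loc k := fun l => if l ∈ S then ⟨V l, Zloc l⟩ else if l ∈ Q then
      ⟨placeOver l, D.cocycles k 0 ((placeOver l).decompositionSubgroup ℚ).subtype⟩
    else ⟨placeOver l, unram D k (placeOver l)⟩
  have PS : ∀ l ∈ S, P l = ⟨V l, Zloc l⟩ := fun l hl => if_pos hl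
  have PQ : ∀ q ∈ Q, P q =
      ⟨placeOver q, D.cocycles k 0 ((placeOver q).decompositionSubgroup ℚ).subtype⟩ := fun q hq =>
    (if_neg fun h => (hQ q hq).2.1 (Finset.mem_union_left _ h)).trans (if_pos hq)
  have P0 : ∀ l, l ∉ S → l ∉ Q → P l = ⟨placeOver l, unram D k (placeOver l)⟩ := fun l h1 h2 =>
    (if_neg h1).trans (if_neg h2)
  have hPV : ∀ l ∈ S'', (P l).1.LiesOverPrime l := fun l hl => by
    by_cases h1 : l ∈ S
    · rw [PS l h1]; exact hV l h1
    by_cases h2 : l ∈ Q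
    · rw [PQ l h2]; exact placeOver_spec (hpr l hl)
    · rw [P0 l h1 h2]; exact placeOver_spec (hpr l hl)
  have hZ' : Z ≤ D.cocyclesOutside k 0 S'' := fun z hz => ⟨(hZ hz).1, fun l hl hlS =>
    (hZ hz).2 l hl fun h => hlS (Finset.union_subset_union Finset.subset_union_left subset_rfl h)⟩
  have key := count D k I S'' (hbad'.trans Finset.subset_union_left) hpr P hPV
    (fun l hl => by
      by_cases h1 : l ∈ S
      · rw [PS l h1]; exact hZloc l h1
      by_cases h2 : l ∈ Q
      · rw [PQ l h2]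
        exact ⟨le_rfl, cobs_le_cocycles D k, (I.tame_bound l _ (hQaux l h2) (placeOver_spec (hpr l hl))).1⟩
      · rw [P0 l h1 h2]
        exact ⟨fun c hc => hc.1, cobs_le_unram D k (hpr l hl) (fun h => h1 (hbad h))
          (placeOver_spec (hpr l hl)), (finite_unram D k (hpr l hl) (placeOver_spec (hpr l hl))).1⟩)
    hF0 (hlow _ hPV) Z hZ'
    (fun z hz l hl => by
      by_cases h1 : l ∈ S
      · rw [PS l h1]; exact hZres z hz l h1
      by_cases h2 : l ∈ Q
      · rw [PQ l h2]; exact resAt_mem D k (hZ hz).1 _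
      · rw [P0 l h1 h2]
        exact ⟨resAt_mem D k (hZ hz).1 _, fun σ hσ =>
          (hZ hz).2 l (hpr l hl) (by simp [h1, h2]) _ (placeOver_spec (hpr l hl)) σ hσ⟩)
    (fun z hz hcob => by
      have h1 : ∀ q ∈ Q, Datum.resAt k (placeOver q) z ∈
          D.cobs k 0 ((placeOver q).decompositionSubgroup ℚ).subtype := fun q hq => by
        have := hcob q (Finset.mem_union_right _ hq)
        rwa [PQ q hq] at this
      have h2 := mem_outside_of_cobs D k hQbad (hZ' hz) h1
      exact hdet0 (hidden_anti D k (hQ12.trans hQ2) ((mem_hidden D k).2 ⟨h2, h1⟩)))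
    (fun y hy horth => by
      have h1 : ∀ q ∈ Q, Datum.resAt k (placeOver q) y ∈
          D.cobs k 1 ((placeOver q).decompositionSubgroup ℚ).subtype := fun q hq => by
        refine I.tame_detect q _ (hQaux q hq) (placeOver_spec (hQbad q hq).1) _
          (resAt_mem D k hy.1 _) fun x hx φ => ?_
        rw [← apply_pairing]
        have h := horth q (Finset.mem_union_right _ hq)
        rw [PQ q hq] at h
        rw [h x hx, map_zero]
      have h2 := mem_outside_of_cobs D k hQbad hy h1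
      exact hdet1 (hidden_anti D k hQ2 ((mem_hidden D k).2 ⟨h2, h1⟩)))
  refine ⟨key.1, key.2.trans ?_⟩
  -- the sum
  have hdisj : Disjoint S' Q := Finset.disjoint_right.2 fun q hq => (hQ q hq).2.1
  have hsub : S ⊆ S' := Finset.subset_union_left
  rw [Finset.sum_union hdisj, ← Finset.sum_sdiff hsub]
  have e1 : ∑ l ∈ S' \ S, ((Module.finrank k ↥(P l).2 : ℤ) - 3) ≤ 0 := Finset.sum_nonpos fun l hl => by
    rw [Finset.mem_sdiff] at hl
    rw [P0 l hl.2 fun h => (hQ l h).2.1 hl.1]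
    dsimp only
    have := (finite_unram D k (hS' l hl.1) (placeOver_spec (hS' l hl.1))).2
    omega
  have e2 : ∑ q ∈ Q, ((Module.finrank k ↥(P q).2 : ℤ) - 3) ≤ (r : ℤ) := by
    refine (Finset.sum_le_sum (g := fun _ => (1 : ℤ)) fun q hq => ?_).trans (by simp [hcard'])
    rw [PQ q hq]
    dsimp only
    have hp1 := placeOver_spec (hQbad q hq).1
    have h1 := (I.tame_bound q _ (hQaux q hq) hp1).2
    have h2 := finrank_cobs_add D k 0 ((placeOver q).decompositionSubgroup ℚ).subtype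
    have h3 := one_le_finrank_invariants D k (hQaux q hq) hp1
    omega
  have e3 : ∑ l ∈ S, ((Module.finrank k ↥(P l).2 : ℤ) - 3) =
      ∑ l ∈ S, ((Module.finrank k ↥(Zloc l) : ℤ) - 3) :=
    Finset.sum_congr rfl fun l hl => by rw [PS l hl]
  rw [e3]
  linarith

end FLTAgent.Lowering.P1
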