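import Fermat.Agent.Lowering.P1.TWBound.Local
import Fermat.Agent.Lowering.P1.TWBound.Pairing

/-!
# The count, for given places and local spaces
-/

set_option autoImplicit false
set_option linter.unusedSectionVars false
set_option linter.style.haveILetI false

noncomputable section

open scoped Pointwise

namespace FLTAgent.Lowering.P1.TWBound

open Primes

local notation "LL" => AlgebraicClosure ℚ
local notation "GG" => (AlgebraicClosure ℚ ≃ₐ[ℚ] AlgebraicClosure ℚ)

variable {p : ℕ} [Fact p.Prime] (D : Datum p) (k : Type) [Field k] [Algebra (ZMod p) k]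

/-- A place with a space of local functions. -/
abbrev Loc : Type :=
  Σ V : ValuationSubring LL,
    Submodule k (↥(V.decompositionSubgroup ℚ) → Matrix (Fin 2) (Fin 2) k)

variable [FiniteDimensional (ZMod p) k]

theorem count (I : Invariants D k) (S : Finset ℕ) (hbad : D.bad ⊆ S) (hpr : ∀ l ∈ S, l.Prime)
    (P : ℕ → Loc k) (hV : ∀ l ∈ S, (P l).1.LiesOverPrime l)
    (hle : ∀ l ∈ S, (P l).2 ≤ D.cocycles k 0 ((P l).1.decompositionSubgroup ℚ).subtype ∧
      D.cobs k 0 ((P l).1.decompositionSubgroup ℚ).subtype ≤ (P l).2 ∧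
      FiniteDimensional k ↥(P l).2)
    [FiniteDimensional k ↥(D.cocyclesOutside k 1 S)]
    (hfin : FiniteDimensional k ↥(D.cocyclesOutside k 0 S))
    (hlow : 4 + ∑ l ∈ S, Module.finrank k
        ↥(D.invariants k 0 ((P l).1.decompositionSubgroup ℚ).subtype) ≤
      Module.finrank k ↥(D.cocyclesOutside k 1 S))
    (Z : Submodule k (GG → Matrix (Fin 2) (Fin 2) k)) (hZ : Z ≤ D.cocyclesOutside k 0 S)
    (hres : ∀ z ∈ Z, ∀ l ∈ S, Datum.resAt k (P l).1 z ∈ (P l).2)
    (hdet0 : ∀ z ∈ Z, (∀ l ∈ S, Datum.resAt k (P l).1 z ∈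
        D.cobs k 0 ((P l).1.decompositionSubgroup ℚ).subtype) →
      z ∈ D.cobs k 0 (MonoidHom.id GG))
    (hdet1 : ∀ y ∈ D.cocyclesOutside k 1 S, (∀ l ∈ S, ∀ x ∈ (P l).2,
        pairing D k I (P l).1 x (Datum.resAt k (P l).1 y) = 0) →
      y ∈ D.cobs k 1 (MonoidHom.id GG)) :
    FiniteDimensional k ↥Z ∧
      (Module.finrank k ↥Z : ℤ) ≤ 2 + ∑ l ∈ S, ((Module.finrank k ↥(P l).2 : ℤ) - 3) := by
  classical
  haveI : FiniteDimensional k ↥Z := Submodule.finiteDimensional_of_le hZ
  refine ⟨inferInstance, ?_⟩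
  haveI hW : ∀ l : ↥S, FiniteDimensional k ↥(P l.1).2 := fun l => (hle l.1 l.2).2.2
  set B := D.cocyclesOutside k 1 S
  let W : Type := (l : ↥S) → ↥(P l.1).2
  let C : Type := (l : ↥S) → ↥(D.cobs k 0 ((P l.1).1.decompositionSubgroup ℚ).subtype)
  let Ψ : ↥Z →ₗ[k] W := LinearMap.pi fun l : ↥S =>
    ((Datum.resAt k (P l.1).1).comp Z.subtype).codRestrict (P l.1).2 fun z => hres z.1 z.2 l.1 l.2
  let incl : C →ₗ[k] W := LinearMap.pi fun l : ↥S =>
    (Submodule.inclusion (hle l.1 l.2).2.1).comp (LinearMap.proj l)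
  let Θ : ↥Z × C →ₗ[k] W := Ψ.coprod incl
  let Φ : ↥B →ₗ[k] Module.Dual k W :=
    ∑ l : ↥S, (LinearMap.lcomp k k ((P l.1).2.subtype.comp (LinearMap.proj (R := k) l))).comp
      ((pairing D k I (P l.1).1).flip.comp ((Datum.resAt k (P l.1).1).comp B.subtype))
  have hΦ : ∀ (y : ↥B) (w : W), Φ y w =
      ∑ l : ↥S, pairing D k I (P l.1).1 (w l).1 (Datum.resAt k (P l.1).1 y.1) := fun y w => by
    simp only [Φ, LinearMap.sum_apply]
    rfl
  -- the two images are orthogonal
  have horth : LinearMap.range Θ ≤ (LinearMap.range Φ).dualCoannihilator := by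
    rintro w ⟨⟨z, c⟩, rfl⟩
    rw [Submodule.mem_dualCoannihilator]
    rintro f ⟨y, rfl⟩
    rw [hΦ]
    have hz := hZ z.2
    have e : ∀ l : ↥S, pairing D k I (P l.1).1 ((Θ (z, c)) l).1 (Datum.resAt k (P l.1).1 y.1) =
        pairing D k I (P l.1).1 (Datum.resAt k (P l.1).1 z.1) (Datum.resAt k (P l.1).1 y.1) := by
      intro l
      show pairing D k I (P l.1).1 (Datum.resAt k (P l.1).1 z.1 + (c l).1) _ = _
      rw [map_add, LinearMap.add_apply, pairing_cobs D k I _ (hpr l.1 l.2) (hV l.1 l.2) (c l).2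
        (resAt_mem D k y.2.1 _), add_zero]
    rw [Finset.sum_congr rfl fun l _ => e l]
    refine eq_of_forall_dual (p := p) k fun φ => ?_
    rw [map_sum, map_zero]
    refine Eq.trans (Finset.sum_congr rfl fun l _ => apply_pairing D k I _ φ _ _) ?_
    rw [← I.sum_eq_zero S hbad hpr _ (cup_mem D k φ hz.1 y.2.1) (fun l hl hlS V hV' σ hσ g h => by
      obtain ⟨h1, h2⟩ := cup_mul_inertia D k hz.1 y.2.1 (hz.2 l hl hlS V hV' σ hσ)
        (y.2.2 l hl hlS V hV' σ hσ) (D.unramified l hl (fun h => hlS (hbad h)) V hV' σ hσ) g h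
      exact ⟨congrArg φ h1, congrArg φ h2⟩) (fun l => (P l).1) hV, ← Finset.sum_coe_sort S]
    rfl
  -- dimensions
  have hΘ : LinearMap.range Θ ≤ _ := horth
  have hdual := Subspace.finrank_add_finrank_dualCoannihilator_eq (LinearMap.range Φ)
  have hΘd := (Submodule.finrank_mono horth)
  have hkerΦ : Module.finrank k ↥(LinearMap.ker Φ) ≤ 3 := by
    let f : ↥(LinearMap.ker Φ) →ₗ[k] ↥(D.cobs k 1 (MonoidHom.id GG)) :=
      (B.subtype.comp (LinearMap.ker Φ).subtype).codRestrict _ fun y => by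
        refine hdet1 _ y.1.2 fun l hl x hx => ?_
        have h := LinearMap.congr_fun (LinearMap.mem_ker.1 y.2)
          (Pi.single (M := fun l : ↥S => ↥(P l.1).2) ⟨l, hl⟩ ⟨x, hx⟩)
        rw [hΦ, LinearMap.zero_apply, Finset.sum_eq_single ⟨l, hl⟩] at h
        · simpa using h
        · intro j _ hj
          rw [Pi.single_eq_of_ne hj]
          simp
        · simp
    have hf : Function.Injective f := fun a b h =>
      Subtype.ext (Subtype.ext (by have h0 := congrArg Subtype.val h; exact h0))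
    exact (LinearMap.finrank_le_finrank_of_injective hf).trans (finrank_cobs_le D k 1 _)
  have hkerΘ : Module.finrank k ↥(LinearMap.ker Θ) ≤ 3 := by
    let f : ↥(LinearMap.ker Θ) →ₗ[k] ↥(D.cobs k 0 (MonoidHom.id GG)) :=
      (Z.subtype.comp ((LinearMap.fst k ↥Z C).comp (LinearMap.ker Θ).subtype)).codRestrict _
        fun x => by
          refine hdet0 _ x.1.1.2 fun l hl => ?_
          have h := congrArg Subtype.val (congrFun (LinearMap.mem_ker.1 x.2) ⟨l, hl⟩)
          change Datum.resAt k (P l).1 x.1.1.1 + (x.1.2 ⟨l, hl⟩).1 = 0 at h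
          show Datum.resAt k (P l).1 x.1.1.1 ∈ _
          rw [eq_neg_of_add_eq_zero_left h]
          exact Submodule.neg_mem _ (x.1.2 ⟨l, hl⟩).2
    have hf : Function.Injective f := fun a b h => by
      have h0 := congrArg Subtype.val h
      have h1 : a.1.1 = b.1.1 := Subtype.ext h0
      refine Subtype.ext (Prod.ext h1 (funext fun l => Subtype.ext ?_))
      have ha := congrArg Subtype.val (congrFun (LinearMap.mem_ker.1 a.2) l)
      have hb := congrArg Subtype.val (congrFun (LinearMap.mem_ker.1 b.2) l)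
      change Datum.resAt k (P l.1).1 a.1.1.1 + (a.1.2 l).1 = 0 at ha
      change Datum.resAt k (P l.1).1 b.1.1.1 + (b.1.2 l).1 = 0 at hb
      rw [h1] at ha
      exact add_left_cancel (ha.trans hb.symm)
    exact (LinearMap.finrank_le_finrank_of_injective hf).trans (finrank_cobs_le D k 0 _)
  have r1 := LinearMap.finrank_range_add_finrank_ker Φ
  have r2 := LinearMap.finrank_range_add_finrank_ker Θ
  rw [Module.finrank_prod] at r2
  have hWd : Module.finrank k W = ∑ l ∈ S, Module.finrank k ↥(P l).2 := by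
    rw [show Module.finrank k W = ∑ l : ↥S, Module.finrank k ↥(P l.1).2 from
      Module.finrank_pi_fintype k, Finset.sum_coe_sort S fun l => Module.finrank k ↥(P l).2]
  have hCd : Module.finrank k C + ∑ l ∈ S, Module.finrank k
      ↥(D.invariants k 0 ((P l).1.decompositionSubgroup ℚ).subtype) = 3 * S.card := by
    rw [show Module.finrank k C = ∑ l : ↥S, Module.finrank k
        ↥(D.cobs k 0 ((P l.1).1.decompositionSubgroup ℚ).subtype) from Module.finrank_pi_fintype k,
      Finset.sum_coe_sort S fun l => Module.finrank k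
        ↥(D.cobs k 0 ((P l).1.decompositionSubgroup ℚ).subtype),
      ← Finset.sum_add_distrib, Finset.sum_congr rfl fun l _ => finrank_cobs_add D k 0 _,
      Finset.sum_const, smul_eq_mul, mul_comm]
  rw [Finset.sum_sub_distrib, Finset.sum_const, nsmul_eq_mul]
  have hWd' : ((Module.finrank k W : ℕ) : ℤ) = ∑ l ∈ S, (Module.finrank k ↥(P l).2 : ℤ) := by
    rw [hWd]; push_cast; rfl
  rw [← hWd']
  omega

end FLTAgent.Lowering.P1.TWBound
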